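/-
S25 ATLAS/DIV, piece B1 (helper5928): order ideals and regular sections of invertible modules.
Mathlib-only.

For `s : N`, `N` a module over a commutative ring `B`:
* `ord B s : Ideal B`  -- the ideal of values `l s`, `l : Module.Dual B N` ("ideal of zeros of `s`");
* `IsRegSec B s`       -- `b • s = 0 → b = 0`.
For invertible `N`: rank-one identity, `IsRegSec B s ↔ (l ↦ l s) injective`, `ord B s • N ≤ B s`,
"`N = B s + g N` iff `ord B s + (g) = B`", and the key statement
`exists_equiv_of_ord_eq`: regular sections with equal order ideals differ by a unique isomorphism.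
Base change: `ord B' (1 ⊗ s) = (ord B s).map (algebraMap B B')`.
-/
import Mathlib

set_option autoImplicit false

namespace Fermat.Agent.S25.ATLAS.DIV.H5928

open scoped TensorProduct

section basic

variable (B : Type*) [CommRing B] {N : Type*} [AddCommGroup N] [Module B N]
  {N' : Type*} [AddCommGroup N'] [Module B N']

/-- The order ideal of `s`: all values `l s` of functionals. -/
def ord (s : N) : Ideal B := LinearMap.range (Module.Dual.eval B N s)

/-- A regular section: no nonzero scalar kills it. -/
def IsRegSec (s : N) : Prop := ∀ b : B, b • s = 0 → b = 0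

variable {B}

theorem mem_ord {s : N} {b : B} : b ∈ ord B s ↔ ∃ l : Module.Dual B N, l s = b := by
  simp [ord, LinearMap.mem_range, Module.Dual.eval_apply]

theorem apply_mem_ord (l : Module.Dual B N) (s : N) : l s ∈ ord B s := mem_ord.2 ⟨l, rfl⟩

theorem ord_map_equiv (e : N ≃ₗ[B] N') (s : N) : ord B (e s) = ord B s := by
  ext b
  simp only [mem_ord]
  constructor
  · rintro ⟨l, rfl⟩
    exact ⟨l.comp e.toLinearMap, rfl⟩
  · rintro ⟨l, rfl⟩
    exact ⟨l.comp e.symm.toLinearMap, by simp⟩

theorem IsRegSec.map_equiv (e : N ≃ₗ[B] N') {s : N} (hs : IsRegSec B s) :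
    IsRegSec B (e s) := by
  intro b hb
  apply hs b
  apply e.injective
  rw [map_smul, hb, map_zero]

theorem ord_map_le (f : N →ₗ[B] N') (s : N) : ord B (f s) ≤ ord B s := by
  intro b hb
  obtain ⟨l, rfl⟩ := mem_ord.1 hb
  exact mem_ord.2 ⟨l.comp f, rfl⟩

theorem ord_smul_of_isUnit {u : B} (hu : IsUnit u) (s : N) : ord B (u • s) = ord B s := by
  obtain ⟨u, rfl⟩ := hu
  apply le_antisymm
  · intro b hb
    obtain ⟨l, rfl⟩ := mem_ord.1 hb
    rw [map_smul, smul_eq_mul]
    exact Ideal.mul_mem_left _ _ (apply_mem_ord l s)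
  · intro b hb
    obtain ⟨l, rfl⟩ := mem_ord.1 hb
    refine mem_ord.2 ⟨(↑u⁻¹ : B) • l, ?_⟩
    rw [LinearMap.smul_apply, map_smul, smul_eq_mul, smul_eq_mul, ← mul_assoc, Units.inv_mul,
      one_mul]

theorem IsRegSec.smul_of_isUnit {u : B} (hu : IsUnit u) {s : N} (hs : IsRegSec B s) :
    IsRegSec B (u • s) := by
  intro b hb
  rw [smul_smul] at hb
  have := hs _ hb
  exact (hu.mul_left_eq_zero).1 this

end basic

section invertible

variable {B : Type*} [CommRing B] {N : Type*} [AddCommGroup N] [Module B N]
  [Module.Invertible B N]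

/-- The rank-one identity on an invertible module. -/
theorem rank_one (l : Module.Dual B N) (m n : N) : l m • n = l n • m := by
  have h := Module.Invertible.tmul_comm (R := B) (m₁ := m) (m₂ := n)
  have h2 := congrArg (TensorProduct.lift (l.smulRight (LinearMap.id : N →ₗ[B] N))) h
  simpa using h2

/-- The values of functionals on an invertible module generate the unit ideal. -/
theorem eq_top_of_forall_apply_mem (I : Ideal B)
    (h : ∀ (l : Module.Dual B N) (n : N), l n ∈ I) : I = ⊤ := by
  obtain ⟨x, hx⟩ := (Module.Invertible.bijective (R := B) (M := N)).2 1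
  rw [Ideal.eq_top_iff_one, ← hx]
  clear hx
  induction x using TensorProduct.induction_on with
  | zero => simp
  | tmul l n => simpa using h l n
  | add x y hx hy => rw [map_add]; exact I.add_mem hx hy

theorem isRegSec_iff_injective_eval {s : N} :
    IsRegSec B s ↔ Function.Injective (Module.Dual.eval B N s) := by
  constructor
  · intro hs
    rw [injective_iff_map_eq_zero]
    intro l hl
    rw [Module.Dual.eval_apply] at hl
    ext n
    apply hs
    rw [← rank_one l s n, hl, zero_smul]
  · intro hinj b hb
    have h1 : ∀ l : Module.Dual B N, b • l = 0 := by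
      intro l
      apply hinj
      rw [Module.Dual.eval_apply, map_zero, LinearMap.smul_apply, ← map_smul, hb, map_zero]
    have h2 : (Ideal.span {b}).annihilator = ⊤ := by
      apply eq_top_of_forall_apply_mem (N := N)
      intro l n
      rw [Submodule.mem_annihilator_span_singleton]
      have := congrArg (fun l' : Module.Dual B N => l' n) (h1 l)
      simpa [mul_comm] using this
    have h3 : (1 : B) ∈ (Ideal.span {b}).annihilator := by rw [h2]; trivial
    rw [Submodule.mem_annihilator_span_singleton] at h3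
    simpa using h3

/-- `ord B s • N ⊆ B s`. -/
theorem ord_smul_mem_span {s : N} {c : B} (hc : c ∈ ord B s) (n : N) :
    c • n ∈ Submodule.span B {s} := by
  obtain ⟨l, rfl⟩ := mem_ord.1 hc
  rw [rank_one l s n]
  exact Submodule.smul_mem _ _ (Submodule.mem_span_singleton_self s)

/-- `N = B s + g N` iff `ord B s + (g) = B` ("the zero locus of `s` misses `V(g)`"). -/
theorem span_sup_smul_eq_top_iff {s : N} {g : B} :
    Submodule.span B {s} ⊔ Ideal.span {g} • (⊤ : Submodule B N) = ⊤ ↔
      ord B s ⊔ Ideal.span {g} = ⊤ := by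
  constructor
  · intro h
    apply eq_top_of_forall_apply_mem (N := N)
    intro l n
    have hn : n ∈ Submodule.span B {s} ⊔ Ideal.span {g} • (⊤ : Submodule B N) := by
      rw [h]; trivial
    obtain ⟨x, hx, y, hy, rfl⟩ := Submodule.mem_sup.1 hn
    obtain ⟨b, rfl⟩ := Submodule.mem_span_singleton.1 hx
    rw [Submodule.ideal_span_singleton_smul] at hy
    obtain ⟨z, -, rfl⟩ := (Submodule.mem_smul_pointwise_iff_exists _ _ _).1 hy
    rw [map_add, map_smul, map_smul, smul_eq_mul, smul_eq_mul]
    refine Ideal.add_mem _ (Ideal.mem_sup_left (Ideal.mul_mem_left _ _ (apply_mem_ord l s)))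
      (Ideal.mem_sup_right ?_)
    exact Ideal.mul_mem_right _ _ (Ideal.mem_span_singleton_self g)
  · intro h
    rw [eq_top_iff]
    intro n _
    have h1 : (1 : B) ∈ ord B s ⊔ Ideal.span {g} := by rw [h]; trivial
    obtain ⟨c, hc, d, hd, hcd⟩ := Submodule.mem_sup.1 h1
    have : n = c • n + d • n := by rw [← add_smul, hcd, one_smul]
    rw [this]
    refine Submodule.add_mem _ (Submodule.mem_sup_left (ord_smul_mem_span hc n))
      (Submodule.mem_sup_right ?_)
    exact Submodule.smul_mem_smul hd Submodule.mem_top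

variable {N' : Type*} [AddCommGroup N'] [Module B N'] [Module.Invertible B N']

/-- A linear map out of an invertible module is determined by its value on a regular section. -/
theorem linearMap_ext_of_isRegSec {s : N} (hs : IsRegSec B s) {f f' : N →ₗ[B] N'}
    (h : f s = f' s) : f = f' := by
  have hinj := isRegSec_iff_injective_eval.1 hs
  ext n
  apply (Module.evalEquiv B N').injective
  ext l
  simp only [Module.evalEquiv_apply, Module.Dual.eval_apply]
  have : l.comp f = l.comp f' := by
    apply hinj
    simp [Module.Dual.eval_apply, h]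
  exact congrArg (fun t : Module.Dual B N => t n) this

/-- **Equal order ideals ⇒ isomorphic.**  Regular sections of invertible modules with the same
order ideal are matched by an isomorphism (unique by `linearMap_ext_of_isRegSec`). -/
theorem exists_equiv_of_ord_eq {s : N} {s' : N'} (hs : IsRegSec B s) (hs' : IsRegSec B s')
    (h : ord B s = ord B s') : ∃ e : N ≃ₗ[B] N', e s = s' := by
  have hinj := isRegSec_iff_injective_eval.1 hs
  have hinj' := isRegSec_iff_injective_eval.1 hs'
  let E : Module.Dual B N ≃ₗ[B] ord B s :=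
    LinearEquiv.ofInjective (Module.Dual.eval B N s) hinj
  let E' : Module.Dual B N' ≃ₗ[B] ord B s' :=
    LinearEquiv.ofInjective (Module.Dual.eval B N' s') hinj'
  let σ : Module.Dual B N ≃ₗ[B] Module.Dual B N' := E ≪≫ₗ LinearEquiv.ofEq _ _ h ≪≫ₗ E'.symm
  have hσ : ∀ l : Module.Dual B N, (σ l) s' = l s := by
    intro l
    have h1 : (E' (σ l) : B) = (σ l) s' := rfl
    rw [← h1]
    simp only [σ, LinearEquiv.trans_apply, LinearEquiv.apply_symm_apply]
    rfl
  refine ⟨Module.evalEquiv B N ≪≫ₗ σ.symm.dualMap ≪≫ₗ (Module.evalEquiv B N').symm, ?_⟩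
  rw [LinearEquiv.trans_apply, LinearEquiv.trans_apply, LinearEquiv.symm_apply_eq]
  ext l'
  simp only [Module.evalEquiv_apply, LinearEquiv.dualMap_apply, Module.Dual.eval_apply]
  rw [← hσ (σ.symm l'), LinearEquiv.apply_symm_apply]

end invertible

section baseChange

variable {B : Type*} [CommRing B] {N : Type*} [AddCommGroup N] [Module B N]
  (B' : Type*) [CommRing B'] [Algebra B B']

theorem map_ord_le_ord_tmul (s : N) :
    (ord B s).map (algebraMap B B') ≤ ord B' ((1 : B') ⊗ₜ[B] s) := by
  rw [Ideal.map_le_iff_le_comap]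
  intro b hb
  obtain ⟨l, rfl⟩ := mem_ord.1 hb
  rw [Ideal.mem_comap]
  refine mem_ord.2 ⟨l.baseChange B', ?_⟩
  rw [Module.Dual.baseChange_apply_tmul, Algebra.smul_def, mul_one]

/-- The order ideal of a base-changed section is the extended ideal. -/
theorem ord_tmul [Module.Finite B N] [Module.Projective B N] (s : N) :
    ord B' ((1 : B') ⊗ₜ[B] s) = (ord B s).map (algebraMap B B') := by
  apply le_antisymm _ (map_ord_le_ord_tmul B' s)
  intro b hb
  obtain ⟨m, hm⟩ := mem_ord.1 hb
  obtain ⟨n, f, g, -, -, hfg⟩ := Module.Finite.exists_comp_eq_id_of_projective B N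
  have hs : s = ∑ i : Fin n, (g s i) • f (Pi.single i 1) := by
    have h1 : g s = ∑ i : Fin n, (g s i) • (Pi.single i (1 : B) : Fin n → B) := by
      ext j
      simp [Finset.sum_apply, Pi.single_apply]
    have h2 : f (g s) = s := by rw [← LinearMap.comp_apply, hfg, LinearMap.id_apply]
    conv_lhs => rw [← h2, h1]
    simp [map_sum]
  have hb' : b = ∑ i : Fin n, algebraMap B B' (g s i) * m ((1 : B') ⊗ₜ[B] f (Pi.single i 1)) := by
    rw [← hm]
    conv_lhs => rw [hs]
    rw [TensorProduct.tmul_sum, map_sum]
    refine Finset.sum_congr rfl fun i _ => ?_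
    rw [TensorProduct.tmul_smul, ← algebraMap_smul B' (g s i), map_smul, smul_eq_mul]
  rw [hb']
  refine Ideal.sum_mem _ fun i _ => Ideal.mul_mem_right _ _ (Ideal.mem_map_of_mem _ ?_)
  exact mem_ord.2 ⟨(LinearMap.proj i : (Fin n → B) →ₗ[B] B).comp g, rfl⟩

/-- Regularity survives base change when `B' ⊗ (B → N, b ↦ b s)` stays injective. -/
theorem isRegSec_tmul (s : N)
    (h : Function.Injective (LinearMap.lTensor B' (LinearMap.toSpanSingleton B N s))) :
    IsRegSec B' ((1 : B') ⊗ₜ[B] s) := by
  intro b hb
  have h1 : LinearMap.lTensor B' (LinearMap.toSpanSingleton B N s) (b ⊗ₜ[B] (1 : B)) = 0 := by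
    rw [LinearMap.lTensor_tmul, LinearMap.toSpanSingleton_apply, one_smul]
    rw [TensorProduct.smul_tmul', smul_eq_mul, mul_one] at hb
    exact hb
  have h2 : b ⊗ₜ[B] (1 : B) = 0 := h (by rw [h1, map_zero])
  have h3 := congrArg (Algebra.TensorProduct.rid B B' B') h2
  simpa using h3

end baseChange

end Fermat.Agent.S25.ATLAS.DIV.H5928
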