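/-
S25 ATLAS/DIV, piece B1 (helper5928): global sections of line bundles on a two-chart and their
divisors -- "equal divisors ⇒ isomorphic", using only chart 1 and the condition C2.

For a glued line bundle `N` over a two-chart `𝔹` and a global section `s = (s₁, s₂)`:
* `C2 N s₂`          : `N₂ = B₂ s₂ + g N₂` (the zero locus of `s` misses `V(g)`);
* `isRegSec₂`        : `s₁` regular + C2 ⇒ `s₂` regular;
* `ideal_eq_of_map_eq`: ideals `J, J' ⊆ B₂` comaximal with `g` and with the same extension to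
                        `B₁₂` are equal;
* `ord₂_eq`          : hence the chart-2 order ideal is determined by the chart-1 order ideal;
* `exists_iso_of_ord_eq` : `N, N'` line bundles with sections `s, s'`, regular on chart 1, C2,
                        `ord s₁ = ord s'₁`  ⇒  an isomorphism `N ≅ N'` carrying `s` to `s'`.
-/
import Fermat.Agent.S25.Lib.BaseChangeData
import Fermat.Agent.S25.ATLAS.DIV.H5928.Ord

set_option autoImplicit false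
set_option linter.style.haveILetI false

universe u

namespace Fermat.Agent.S25.ATLAS.DIV.H5928

open scoped TensorProduct

open Fermat.Agent.S25 GluedModule

variable {R : Type u} [CommRing R] {𝔹 : TwoChart R}

/-- The overlap module of a line bundle is invertible. -/
theorem invertible₁₂ (N : GluedModule 𝔹) (hN : N.IsLineBundle) :
    Module.Invertible 𝔹.B₁₂ N.N₁₂ := by
  letI := 𝔹.algebra₁; letI := N.module₁
  haveI := N.isScalarTower₁; haveI := 𝔹.isLocalization₁; haveI := N.isLocalizedModule₁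
  haveI : Module.Invertible 𝔹.B₁ N.N₁ := hN.inv₁
  exact Module.Invertible.of_isLocalization (Submonoid.powers 𝔹.f) N.ι₁ₗ

theorem isRegSec_ι₁ (N : GluedModule 𝔹) {s : N.N₁} (hs : IsRegSec 𝔹.B₁ s) :
    IsRegSec 𝔹.B₁₂ (N.ι₁ s) := by
  intro c hc
  obtain ⟨a, n, rfl⟩ := 𝔹.surj₁ c
  have h1 : N.ι₁ (a • s) = 0 := by
    rw [N.ι₁_smul]
    have h2 := congrArg (fun z => (𝔹.r₁ 𝔹.f) ^ n • z) hc
    simp only [smul_zero, ← mul_smul] at h2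
    rwa [mul_comm, mul_assoc, ← mul_pow, 𝔹.gf, one_pow, mul_one] at h2
  obtain ⟨m, hm⟩ := N.ker₁ _ h1
  rw [← mul_smul] at hm
  have h3 := hs _ hm
  have h4 : 𝔹.r₁ a = 0 := by
    have h5 : 𝔹.r₁ 𝔹.f ^ m * 𝔹.r₁ a = 0 := by rw [← map_pow, ← map_mul, h3, map_zero]
    have h6 := congrArg (fun z => (𝔹.r₂ 𝔹.g) ^ m * z) h5
    simp only [mul_zero, ← mul_assoc, ← mul_pow, 𝔹.gf, one_pow, one_mul] at h6
    exact h6
  rw [h4, zero_mul]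

theorem isRegSec_ι₂ (N : GluedModule 𝔹) {s : N.N₂} (hs : IsRegSec 𝔹.B₂ s) :
    IsRegSec 𝔹.B₁₂ (N.ι₂ s) := by
  intro c hc
  obtain ⟨a, n, rfl⟩ := 𝔹.surj₂ c
  have h1 : N.ι₂ (a • s) = 0 := by
    rw [N.ι₂_smul]
    have h2 := congrArg (fun z => (𝔹.r₂ 𝔹.g) ^ n • z) hc
    simp only [smul_zero, ← mul_smul] at h2
    rwa [mul_comm, mul_assoc, ← mul_pow, 𝔹.fg, one_pow, mul_one] at h2
  obtain ⟨m, hm⟩ := N.ker₂ _ h1
  rw [← mul_smul] at hm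
  have h3 := hs _ hm
  have h4 : 𝔹.r₂ a = 0 := by
    have h5 : 𝔹.r₂ 𝔹.g ^ m * 𝔹.r₂ a = 0 := by rw [← map_pow, ← map_mul, h3, map_zero]
    have h6 := congrArg (fun z => (𝔹.r₁ 𝔹.f) ^ m * z) h5
    simp only [mul_zero, ← mul_assoc, ← mul_pow, 𝔹.fg, one_pow, one_mul] at h6
    exact h6
  rw [h4, zero_mul]

/-- The order ideal on the overlap is the extension of the chart-1 order ideal. -/
theorem ord_ι₁ (N : GluedModule 𝔹) (hN : N.IsLineBundle) (s : N.N₁) :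
    ord 𝔹.B₁₂ (N.ι₁ s) = (ord 𝔹.B₁ s).map 𝔹.r₁ := by
  letI := 𝔹.algebra₁; letI := N.module₁
  haveI := N.isScalarTower₁; haveI := 𝔹.isLocalization₁; haveI := N.isLocalizedModule₁
  haveI : Module.Invertible 𝔹.B₁ N.N₁ := hN.inv₁
  have hbc : IsBaseChange 𝔹.B₁₂ N.ι₁ₗ :=
    IsLocalizedModule.isBaseChange (Submonoid.powers 𝔹.f) 𝔹.B₁₂ N.ι₁ₗ
  have h1 : hbc.equiv ((1 : 𝔹.B₁₂) ⊗ₜ[𝔹.B₁] s) = N.ι₁ s := by
    rw [IsBaseChange.equiv_tmul, one_smul]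
    rfl
  rw [← h1, ord_map_equiv, ord_tmul]
  rfl

/-- The order ideal on the overlap is the extension of the chart-2 order ideal. -/
theorem ord_ι₂ (N : GluedModule 𝔹) (hN : N.IsLineBundle) (s : N.N₂) :
    ord 𝔹.B₁₂ (N.ι₂ s) = (ord 𝔹.B₂ s).map 𝔹.r₂ := by
  letI := 𝔹.algebra₂; letI := N.module₂
  haveI := N.isScalarTower₂; haveI := 𝔹.isLocalization₂; haveI := N.isLocalizedModule₂
  haveI : Module.Invertible 𝔹.B₂ N.N₂ := hN.inv₂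
  have hbc : IsBaseChange 𝔹.B₁₂ N.ι₂ₗ :=
    IsLocalizedModule.isBaseChange (Submonoid.powers 𝔹.g) 𝔹.B₁₂ N.ι₂ₗ
  have h1 : hbc.equiv ((1 : 𝔹.B₁₂) ⊗ₜ[𝔹.B₂] s) = N.ι₂ s := by
    rw [IsBaseChange.equiv_tmul, one_smul]
    rfl
  rw [← h1, ord_map_equiv, ord_tmul]
  rfl

/-- An ideal of `B₂` comaximal with `g` is determined by its extension to `B₁₂ = B₂[1/g]`. -/
theorem ideal_le_of_map_le {J J' : Ideal 𝔹.B₂} (hJ' : J' ⊔ Ideal.span {𝔹.g} = ⊤)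
    (h : J.map 𝔹.r₂ ≤ J'.map 𝔹.r₂) : J ≤ J' := by
  intro a ha
  have h1 : 𝔹.r₂ a ∈ J'.map 𝔹.r₂ := h (Ideal.mem_map_of_mem _ ha)
  obtain ⟨n, hn⟩ : ∃ n : ℕ, 𝔹.g ^ n * a ∈ J' := by
    letI := 𝔹.algebra₂
    haveI := 𝔹.isLocalization₂
    have h2 : algebraMap 𝔹.B₂ 𝔹.B₁₂ a ∈ J'.map (algebraMap 𝔹.B₂ 𝔹.B₁₂) := h1
    rw [IsLocalization.mem_map_algebraMap_iff (Submonoid.powers 𝔹.g)] at h2
    obtain ⟨⟨⟨c, hc⟩, ⟨_, m, rfl⟩⟩, hcm⟩ := h2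
    have h3 : 𝔹.r₂ (a * 𝔹.g ^ m - c) = 0 := by
      rw [map_sub, map_mul]
      exact sub_eq_zero.2 hcm
    obtain ⟨l, hl⟩ := 𝔹.ker₂ _ h3
    refine ⟨l + m, ?_⟩
    have h4 : 𝔹.g ^ (l + m) * a = 𝔹.g ^ l * c := by
      rw [mul_sub, sub_eq_zero] at hl
      rw [pow_add, mul_assoc, ← hl]
      ring
    rw [h4]
    exact Ideal.mul_mem_left _ _ hc
  have h4 : J' ⊔ Ideal.span {𝔹.g ^ n} = ⊤ := by
    have := Ideal.sup_pow_eq_top (n := n) hJ'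
    rwa [Ideal.span_singleton_pow] at this
  have h5 : (1 : 𝔹.B₂) ∈ J' ⊔ Ideal.span {𝔹.g ^ n} := by rw [h4]; trivial
  obtain ⟨c, hc, d, hd, hcd⟩ := Submodule.mem_sup.1 h5
  obtain ⟨d', rfl⟩ := Ideal.mem_span_singleton'.1 hd
  have h6 : a = c * a + d' * (𝔹.g ^ n * a) := by
    rw [← mul_assoc, ← add_mul, hcd, one_mul]
  rw [h6]
  exact J'.add_mem (J'.mul_mem_right _ hc) (J'.mul_mem_left _ hn)

theorem ideal_eq_of_map_eq {J J' : Ideal 𝔹.B₂} (hJ : J ⊔ Ideal.span {𝔹.g} = ⊤)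
    (hJ' : J' ⊔ Ideal.span {𝔹.g} = ⊤) (h : J.map 𝔹.r₂ = J'.map 𝔹.r₂) : J = J' :=
  le_antisymm (ideal_le_of_map_le hJ' h.le) (ideal_le_of_map_le hJ h.ge)

/-- Condition C2: `N₂ = B₂ s₂ + g N₂`, i.e. the section generates `N` along `V(g)`. -/
def C2 (N : GluedModule 𝔹) (s₂ : N.N₂) : Prop :=
  Submodule.span 𝔹.B₂ {s₂} ⊔ Ideal.span {𝔹.g} • (⊤ : Submodule 𝔹.B₂ N.N₂) = ⊤

theorem C2.exists_eq {N : GluedModule 𝔹} {s₂ : N.N₂} (h : C2 N s₂) (x : N.N₂) :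
    ∃ (b : 𝔹.B₂) (y : N.N₂), x = b • s₂ + 𝔹.g • y := by
  have hx : x ∈ Submodule.span 𝔹.B₂ {s₂} ⊔ Ideal.span {𝔹.g} • (⊤ : Submodule 𝔹.B₂ N.N₂) := by
    rw [h]; trivial
  obtain ⟨x₁, hx₁, x₂, hx₂, rfl⟩ := Submodule.mem_sup.1 hx
  obtain ⟨b, rfl⟩ := Submodule.mem_span_singleton.1 hx₁
  rw [Submodule.ideal_span_singleton_smul] at hx₂
  obtain ⟨y, -, rfl⟩ := (Submodule.mem_smul_pointwise_iff_exists _ _ _).1 hx₂
  exact ⟨b, y, rfl⟩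

theorem C2.ord_sup {N : GluedModule 𝔹} (hN : N.IsLineBundle) {s₂ : N.N₂} (h : C2 N s₂) :
    ord 𝔹.B₂ s₂ ⊔ Ideal.span {𝔹.g} = ⊤ := by
  haveI : Module.Invertible 𝔹.B₂ N.N₂ := hN.inv₂
  exact span_sup_smul_eq_top_iff.1 h

theorem C2.of_ord_sup {N : GluedModule 𝔹} (hN : N.IsLineBundle) {s₂ : N.N₂}
    (h : ord 𝔹.B₂ s₂ ⊔ Ideal.span {𝔹.g} = ⊤) : C2 N s₂ := by
  haveI : Module.Invertible 𝔹.B₂ N.N₂ := hN.inv₂
  exact span_sup_smul_eq_top_iff.2 h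

/-- Regular on chart 1 and C2 ⇒ regular on chart 2. -/
theorem isRegSec₂ (N : GluedModule 𝔹) (hN : N.IsLineBundle) {s : N.N₁ × N.N₂}
    (hs : N.ι₁ s.1 = N.ι₂ s.2) (h₁ : IsRegSec 𝔹.B₁ s.1) (h₂ : C2 N s.2) :
    IsRegSec 𝔹.B₂ s.2 := by
  haveI : Module.Invertible 𝔹.B₂ N.N₂ := hN.inv₂
  intro b hb
  -- `r₂ b = 0`
  have h3 : 𝔹.r₂ b = 0 := by
    apply isRegSec_ι₁ N h₁
    rw [hs, ← N.ι₂_smul, hb, map_zero]
  obtain ⟨n, hn⟩ := 𝔹.ker₂ b h3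
  -- `b N₂ ⊆ g^m b N₂` for all `m`
  have h4 : ∀ (m : ℕ) (x : N.N₂), ∃ y : N.N₂, b • x = (𝔹.g ^ m * b) • y := by
    intro m
    induction m with
    | zero => intro x; exact ⟨x, by simp⟩
    | succ m ih =>
      intro x
      obtain ⟨y, hy⟩ := ih x
      obtain ⟨c, z, rfl⟩ := h₂.exists_eq y
      refine ⟨z, ?_⟩
      rw [hy, smul_add, smul_smul, smul_smul]
      have e1 : (𝔹.g ^ m * b * c) • s.2 = (𝔹.g ^ m * c) • (b • s.2) := by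
        rw [smul_smul]; congr 1; ring
      rw [e1, hb, smul_zero, zero_add]
      congr 1
      ring
  have h5 : ∀ x : N.N₂, b • x = 0 := by
    intro x
    obtain ⟨y, hy⟩ := h4 n x
    rw [hy, hn, zero_smul]
  apply FaithfulSMul.eq_of_smul_eq_smul (α := N.N₂)
  intro x
  rw [h5 x, zero_smul]

/-- Under C2 the chart-2 order ideal is determined by the chart-1 order ideal. -/
theorem ord₂_eq {N N' : GluedModule 𝔹} (hN : N.IsLineBundle) (hN' : N'.IsLineBundle)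
    {s : N.N₁ × N.N₂} {s' : N'.N₁ × N'.N₂} (hs : N.ι₁ s.1 = N.ι₂ s.2)
    (hs' : N'.ι₁ s'.1 = N'.ι₂ s'.2) (h₂ : C2 N s.2) (h₂' : C2 N' s'.2)
    (h : ord 𝔹.B₁ s.1 = ord 𝔹.B₁ s'.1) : ord 𝔹.B₂ s.2 = ord 𝔹.B₂ s'.2 := by
  apply ideal_eq_of_map_eq (h₂.ord_sup hN) (h₂'.ord_sup hN')
  rw [← ord_ι₂ N hN, ← ord_ι₂ N' hN', ← hs, ← hs', ord_ι₁ N hN, ord_ι₁ N' hN', h]

/-- The overlap map induced by a chart-1 map. -/
noncomputable def locHom₁ (N N' : GluedModule 𝔹) (φ : N.N₁ →ₗ[𝔹.B₁] N'.N₁) :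
    N.N₁₂ →ₗ[𝔹.B₁₂] N'.N₁₂ :=
  letI := 𝔹.algebra₁; letI := N.module₁; letI := N'.module₁
  haveI := N.isScalarTower₁; haveI := N'.isScalarTower₁
  haveI := 𝔹.isLocalization₁
  haveI := N.isLocalizedModule₁; haveI := N'.isLocalizedModule₁
  IsLocalizedModule.mapExtendScalars (Submonoid.powers 𝔹.f) N.ι₁ₗ N'.ι₁ₗ 𝔹.B₁₂ φ

theorem locHom₁_ι₁ (N N' : GluedModule 𝔹) (φ : N.N₁ →ₗ[𝔹.B₁] N'.N₁) (n : N.N₁) :
    locHom₁ N N' φ (N.ι₁ n) = N'.ι₁ (φ n) := by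
  letI := 𝔹.algebra₁; letI := N.module₁; letI := N'.module₁
  haveI := N.isScalarTower₁; haveI := N'.isScalarTower₁
  haveI := 𝔹.isLocalization₁
  haveI := N.isLocalizedModule₁; haveI := N'.isLocalizedModule₁
  exact IsLocalizedModule.map_apply (Submonoid.powers 𝔹.f) N.ι₁ₗ N'.ι₁ₗ φ n

/-- The overlap map induced by a chart-2 map. -/
noncomputable def locHom₂ (N N' : GluedModule 𝔹) (φ : N.N₂ →ₗ[𝔹.B₂] N'.N₂) :
    N.N₁₂ →ₗ[𝔹.B₁₂] N'.N₁₂ :=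
  letI := 𝔹.algebra₂; letI := N.module₂; letI := N'.module₂
  haveI := N.isScalarTower₂; haveI := N'.isScalarTower₂
  haveI := 𝔹.isLocalization₂
  haveI := N.isLocalizedModule₂; haveI := N'.isLocalizedModule₂
  IsLocalizedModule.mapExtendScalars (Submonoid.powers 𝔹.g) N.ι₂ₗ N'.ι₂ₗ 𝔹.B₁₂ φ

theorem locHom₂_ι₂ (N N' : GluedModule 𝔹) (φ : N.N₂ →ₗ[𝔹.B₂] N'.N₂) (n : N.N₂) :
    locHom₂ N N' φ (N.ι₂ n) = N'.ι₂ (φ n) := by
  letI := 𝔹.algebra₂; letI := N.module₂; letI := N'.module₂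
  haveI := N.isScalarTower₂; haveI := N'.isScalarTower₂
  haveI := 𝔹.isLocalization₂
  haveI := N.isLocalizedModule₂; haveI := N'.isLocalizedModule₂
  exact IsLocalizedModule.map_apply (Submonoid.powers 𝔹.g) N.ι₂ₗ N'.ι₂ₗ φ n

/-- A morphism of line bundles from chart maps which agree on one regular global section. -/
theorem exists_hom_of_charts {N N' : GluedModule 𝔹} (hN : N.IsLineBundle)
    (hN' : N'.IsLineBundle) {s : N.N₁ × N.N₂} (hs : N.ι₁ s.1 = N.ι₂ s.2)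
    (h₁ : IsRegSec 𝔹.B₁ s.1) (φ₁ : N.N₁ →ₗ[𝔹.B₁] N'.N₁) (φ₂ : N.N₂ →ₗ[𝔹.B₂] N'.N₂)
    (hφ : N'.ι₁ (φ₁ s.1) = N'.ι₂ (φ₂ s.2)) :
    ∃ F : Hom N N', F.φ₁ = φ₁ ∧ F.φ₂ = φ₂ := by
  haveI := invertible₁₂ N hN
  haveI := invertible₁₂ N' hN'
  have key : locHom₁ N N' φ₁ = locHom₂ N N' φ₂ := by
    apply linearMap_ext_of_isRegSec (isRegSec_ι₁ N h₁)
    rw [locHom₁_ι₁, hs, locHom₂_ι₂, hφ]
  exact ⟨{ φ₁ := φ₁, φ₂ := φ₂, φ₁₂ := locHom₁ N N' φ₁, comm₁ := locHom₁_ι₁ N N' φ₁,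
           comm₂ := fun n => by rw [key, locHom₂_ι₂] }, rfl, rfl⟩

/-- **Equal divisors ⇒ isomorphic.**  Two line bundles with global sections which are regular on
chart 1, satisfy C2, and have the same chart-1 order ideal, are isomorphic by an isomorphism
matching the sections. -/
theorem exists_iso_of_ord_eq {N N' : GluedModule 𝔹} (hN : N.IsLineBundle)
    (hN' : N'.IsLineBundle) {s : N.N₁ × N.N₂} {s' : N'.N₁ × N'.N₂}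
    (hs : N.ι₁ s.1 = N.ι₂ s.2) (hs' : N'.ι₁ s'.1 = N'.ι₂ s'.2)
    (h₁ : IsRegSec 𝔹.B₁ s.1) (h₁' : IsRegSec 𝔹.B₁ s'.1) (h₂ : C2 N s.2) (h₂' : C2 N' s'.2)
    (h : ord 𝔹.B₁ s.1 = ord 𝔹.B₁ s'.1) :
    ∃ e : Iso N N', e.e₁ s.1 = s'.1 ∧ e.e₂ s.2 = s'.2 := by
  haveI : Module.Invertible 𝔹.B₁ N.N₁ := hN.inv₁
  haveI : Module.Invertible 𝔹.B₂ N.N₂ := hN.inv₂
  haveI : Module.Invertible 𝔹.B₁ N'.N₁ := hN'.inv₁
  haveI : Module.Invertible 𝔹.B₂ N'.N₂ := hN'.inv₂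
  obtain ⟨e₁, he₁⟩ := exists_equiv_of_ord_eq h₁ h₁' h
  obtain ⟨e₂, he₂⟩ := exists_equiv_of_ord_eq (isRegSec₂ N hN hs h₁ h₂)
    (isRegSec₂ N' hN' hs' h₁' h₂') (ord₂_eq hN hN' hs hs' h₂ h₂' h)
  obtain ⟨F, hF₁, hF₂⟩ := exists_hom_of_charts hN hN' hs h₁ e₁.toLinearMap e₂.toLinearMap
    (by simp only [LinearEquiv.coe_coe, he₁, he₂, hs'])
  refine ⟨Iso.ofBijective F (by rw [hF₁]; exact e₁.bijective) (by rw [hF₂]; exact e₂.bijective),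
    ?_, ?_⟩
  · rw [Iso.ofBijective_e₁, hF₁]; exact he₁
  · rw [Iso.ofBijective_e₂, hF₂]; exact he₂

end Fermat.Agent.S25.ATLAS.DIV.H5928
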