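/-
S25 ATLAS/DIV, piece B1 (helper5928): global sections of line bundles and base change, on the
frozen relation `IsBC` / `BaseChangeData`.

`Q` a line bundle over a two-chart `𝔹` with a global section `t`, `Ψ : TwoChart.Hom φ 𝔹 𝔹'`.
* (D) `BaseChangeData.section_spec` : for base change data `D : BaseChangeData Ψ Q M`, the image
  `s = (D.j₁ t₁, D.j₂ t₂)` is a global section of `M`, satisfies C2 if `t` does, has
  `ord s₁ = (ord t₁).map Ψ.ψ₁`, and is regular on chart 1 as soon as `BCReg₁ Ψ Q t₁` holds.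
* (C) `exists_baseChangeData_of_ord_eq` : conversely a line bundle `M` over `𝔹'` with a global
  section `s`, regular on chart 1, C2, `ord s₁ = (ord t₁).map Ψ.ψ₁`, is a base change of `Q`,
  by data with `j t = s`.
* `bcReg₁_of_flat` : for the family charts `𝒞.chartHom φ` (`φ : S →ₐ[k] R`), `BCReg₁` holds when
  `t₁` is regular and `Q₁ ⧸ B₁ t₁` is flat over `S`.
* `isBC_iff_exists_section` : the resulting characterisation of `IsBC (𝒞.chartHom φ) Q M`.
-/
import Fermat.Agent.S25.Lib.BaseChangeData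
import Fermat.Agent.S25.ATLAS.DIV.H5928.SecIso

set_option autoImplicit false
set_option linter.style.haveILetI false

universe u

namespace Fermat.Agent.S25.ATLAS.DIV.H5928

open scoped TensorProduct

open Fermat.Agent.S25 GluedModule

section pushout

/-- Tor-vanishing over a pushout square: if `B' = R ⊗[S] B` and `u : N₁ → N₂` is an injective
`B`-linear map with an `S`-flat cokernel, then `B' ⊗[B] u` is injective. -/
theorem lTensor_injective_of_isPushout
    (S R B B' : Type*) [CommRing S] [CommRing R] [CommRing B] [CommRing B']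
    [Algebra S R] [Algebra S B] [Algebra S B'] [Algebra B B'] [Algebra R B']
    [IsScalarTower S B B'] [IsScalarTower S R B'] [Algebra.IsPushout S R B B']
    {N₁ N₂ P : Type*} [AddCommGroup N₁] [AddCommGroup N₂] [AddCommGroup P]
    [Module B N₁] [Module B N₂] [Module S N₁] [Module S N₂] [Module S P]
    [IsScalarTower S B N₁] [IsScalarTower S B N₂] [Module.Flat S P]
    (u : N₁ →ₗ[B] N₂) (hu : Function.Injective u)
    (p : N₂ →ₗ[S] P) (hp : Function.Surjective p) (hex : Function.Exact u p) :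
    Function.Injective (LinearMap.lTensor B' u) := by
  have key : ∀ x : R ⊗[S] N₁,
      LinearMap.lTensor B' u ((Algebra.IsPushout.cancelBaseChange S R B B' N₁).symm x) =
        (Algebra.IsPushout.cancelBaseChange S R B B' N₂).symm
          (LinearMap.lTensor R (u.restrictScalars S) x) := by
    intro x
    induction x using TensorProduct.induction_on with
    | zero => simp
    | tmul r n => simp
    | add x y hx hy => simp only [map_add, hx, hy]
  have hinj : Function.Injective (LinearMap.lTensor R (u.restrictScalars S)) :=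
    LinearMap.lTensor_injective_of_exact_of_flat p hp (u.restrictScalars S) hu hex R
  intro x y hxy
  have hx := key (Algebra.IsPushout.cancelBaseChange S R B B' N₁ x)
  have hy := key (Algebra.IsPushout.cancelBaseChange S R B B' N₁ y)
  rw [LinearEquiv.symm_apply_apply] at hx hy
  rw [hx, hy] at hxy
  exact (Algebra.IsPushout.cancelBaseChange S R B B' N₁).injective
    (hinj ((Algebra.IsPushout.cancelBaseChange S R B B' N₂).symm.injective hxy))

end pushout

section general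

variable {R R' : Type u} [CommRing R] [CommRing R'] {φ : R →+* R'}
  {𝔹 : TwoChart R} {𝔹' : TwoChart R'} {Ψ : TwoChart.Hom φ 𝔹 𝔹'}
  {N : GluedModule 𝔹} {N' : GluedModule 𝔹'}

theorem C2_iff {N : GluedModule 𝔹} {s₂ : N.N₂} :
    C2 N s₂ ↔ ∀ x : N.N₂, ∃ (b : 𝔹.B₂) (y : N.N₂), x = b • s₂ + 𝔹.g • y := by
  refine ⟨fun h => h.exists_eq, fun h => ?_⟩
  rw [C2, eq_top_iff]
  intro x _
  obtain ⟨b, y, rfl⟩ := h x
  refine Submodule.add_mem _ (Submodule.mem_sup_left
    (Submodule.smul_mem _ _ (Submodule.mem_span_singleton_self s₂))) (Submodule.mem_sup_right ?_)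
  exact Submodule.smul_mem_smul (Ideal.mem_span_singleton_self _) Submodule.mem_top

theorem C2.map_iso {N N₀ : GluedModule 𝔹} (e : Iso N N₀) {s₂ : N.N₂} (h : C2 N s₂) :
    C2 N₀ (e.e₂ s₂) := by
  rw [C2_iff]
  intro x
  obtain ⟨b, y, hy⟩ := h.exists_eq (e.e₂.symm x)
  refine ⟨b, e.e₂ y, ?_⟩
  rw [← map_smul, ← map_smul, ← map_add, ← hy, LinearEquiv.apply_symm_apply]

/-- C2 passes to the concrete base change. -/
theorem C2.bcMk {t₂ : N.N₂} (h : C2 N t₂) (Ψ : TwoChart.Hom φ 𝔹 𝔹') :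
    C2 (N.baseChange Ψ) (bcMk₂ Ψ N 1 t₂) := by
  rw [C2_iff]
  intro x
  induction x using baseChange_induction₂ with
  | zero => exact ⟨0, 0, by simp⟩
  | mk b n =>
    obtain ⟨c, y, rfl⟩ := h.exists_eq n
    refine ⟨b * Ψ.ψ₂ c, bcMk₂ Ψ N b y, ?_⟩
    rw [bcMk₂_add_right, bcMk₂_smul_right, bcMk₂_smul_right, smul_bcMk₂, smul_bcMk₂, mul_one,
      Ψ.map_g, mul_comm b]
  | add x y hx hy =>
    obtain ⟨b, z, rfl⟩ := hx
    obtain ⟨b', z', rfl⟩ := hy
    exact ⟨b + b', z + z', by rw [add_smul, smul_add]; abel⟩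

namespace BCSec

/-- The image of a global section under base change data is a global section. -/
theorem compat (D : BaseChangeData Ψ N N') {t : N.N₁ × N.N₂} (ht : N.ι₁ t.1 = N.ι₂ t.2) :
    N'.ι₁ (D.j₁ t.1) = N'.ι₂ (D.j₂ t.2) := by
  rw [← D.comm₁, ← D.comm₂, ht]

theorem j₁_eq (D : BaseChangeData Ψ N N') (t₁ : N.N₁) :
    D.j₁ t₁ = D.iso.e₁ (bcMk₁ Ψ N 1 t₁) := by
  rw [BaseChangeData.iso_e₁_bcMk₁, one_smul]

theorem j₂_eq (D : BaseChangeData Ψ N N') (t₂ : N.N₂) :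
    D.j₂ t₂ = D.iso.e₂ (bcMk₂ Ψ N 1 t₂) := by
  rw [BaseChangeData.iso_e₂_bcMk₂, one_smul]

/-- C2 passes to any base change. -/
theorem c2 (D : BaseChangeData Ψ N N') {t₂ : N.N₂} (h : C2 N t₂) : C2 N' (D.j₂ t₂) := by
  rw [j₂_eq]
  exact (h.bcMk Ψ).map_iso D.iso

theorem ord_bcMk₁ (Ψ : TwoChart.Hom φ 𝔹 𝔹') (hN : N.IsLineBundle) (t₁ : N.N₁) :
    ord 𝔹'.B₁ (bcMk₁ Ψ N 1 t₁) = (ord 𝔹.B₁ t₁).map Ψ.ψ₁ := by
  letI := Ψ.ψ₁.toAlgebra
  haveI : Module.Invertible 𝔹.B₁ N.N₁ := hN.inv₁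
  exact ord_tmul 𝔹'.B₁ t₁

/-- The chart-1 order ideal of the image section is the extended ideal. -/
theorem ord₁ (D : BaseChangeData Ψ N N') (hN : N.IsLineBundle) (t₁ : N.N₁) :
    ord 𝔹'.B₁ (D.j₁ t₁) = (ord 𝔹.B₁ t₁).map Ψ.ψ₁ := by
  rw [j₁_eq, ord_map_equiv, ord_bcMk₁ Ψ hN]

end BCSec

/-- "The base change of the section `t₁` is still regular" (on the concrete base change; by
`BCSec.isRegSec₁` then on every base change).  For the family charts see `bcReg₁_of_flat`. -/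
def BCReg₁ (Ψ : TwoChart.Hom φ 𝔹 𝔹') (N : GluedModule 𝔹) (t₁ : N.N₁) : Prop :=
  IsRegSec 𝔹'.B₁ (bcMk₁ Ψ N 1 t₁)

theorem BCSec.isRegSec₁ (D : BaseChangeData Ψ N N') {t₁ : N.N₁} (h : BCReg₁ Ψ N t₁) :
    IsRegSec 𝔹'.B₁ (D.j₁ t₁) := by
  rw [BCSec.j₁_eq]
  exact IsRegSec.map_equiv D.iso.e₁ h

/-- (D) Everything about the image of a good section under base change data. -/
theorem BCSec.section_spec (D : BaseChangeData Ψ N N') (hN : N.IsLineBundle)
    {t : N.N₁ × N.N₂} (ht : N.ι₁ t.1 = N.ι₂ t.2) (ht₂ : C2 N t.2) (hreg : BCReg₁ Ψ N t.1) :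
    N'.ι₁ (D.j₁ t.1) = N'.ι₂ (D.j₂ t.2) ∧ IsRegSec 𝔹'.B₁ (D.j₁ t.1) ∧
      IsRegSec 𝔹'.B₂ (D.j₂ t.2) ∧ C2 N' (D.j₂ t.2) ∧
      ord 𝔹'.B₁ (D.j₁ t.1) = (ord 𝔹.B₁ t.1).map Ψ.ψ₁ := by
  have hN' : N'.IsLineBundle := IsBC.isLineBundle ⟨D⟩ hN
  have h1 := BCSec.compat D ht
  have h2 := BCSec.isRegSec₁ D hreg
  have h3 := BCSec.c2 D ht₂
  exact ⟨h1, h2, isRegSec₂ N' hN' (s := (D.j₁ t.1, D.j₂ t.2)) h1 h2 h3, h3, BCSec.ord₁ D hN t.1⟩

/-- (C) **A line bundle with a section whose divisor is the pulled-back divisor is the base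
change.** -/
theorem exists_baseChangeData_of_ord_eq (hN : N.IsLineBundle) (hN' : N'.IsLineBundle)
    {t : N.N₁ × N.N₂} (ht : N.ι₁ t.1 = N.ι₂ t.2) (ht₂ : C2 N t.2) (hreg : BCReg₁ Ψ N t.1)
    {s : N'.N₁ × N'.N₂} (hs : N'.ι₁ s.1 = N'.ι₂ s.2) (hs₁ : IsRegSec 𝔹'.B₁ s.1)
    (hs₂ : C2 N' s.2) (hord : ord 𝔹'.B₁ s.1 = (ord 𝔹.B₁ t.1).map Ψ.ψ₁) :
    ∃ D : BaseChangeData Ψ N N', D.j₁ t.1 = s.1 ∧ D.j₂ t.2 = s.2 := by
  have hbc : (N.baseChange Ψ).IsLineBundle := baseChange_isLineBundle Ψ hN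
  obtain ⟨h1, h2, -, h4, h5⟩ := BCSec.section_spec (baseChangeData Ψ N) hN ht ht₂ hreg
  obtain ⟨e, he₁, he₂⟩ := exists_iso_of_ord_eq hbc hN'
    (s := ((baseChangeData Ψ N).j₁ t.1, (baseChangeData Ψ N).j₂ t.2)) (s' := s) h1 hs h2 hs₁ h4
    hs₂ (by rw [h5, hord])
  exact ⟨(baseChangeData Ψ N).transTarget e, he₁, he₂⟩

end general

section chart

/-- Tor-vanishing for the family charts, in plain tensor-product terms. -/
theorem lTensor_injective_tensor (k S R A : Type*) [CommRing k] [CommRing S] [CommRing R]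
    [CommRing A] [Algebra k S] [Algebra k R] [Algebra k A] (φ : S →ₐ[k] R)
    {N₁ N₂ P : Type*} [AddCommGroup N₁] [AddCommGroup N₂] [AddCommGroup P]
    [Module (S ⊗[k] A) N₁] [Module (S ⊗[k] A) N₂] [Module S N₁] [Module S N₂] [Module S P]
    [IsScalarTower S (S ⊗[k] A) N₁] [IsScalarTower S (S ⊗[k] A) N₂] [Module.Flat S P]
    (u : N₁ →ₗ[S ⊗[k] A] N₂) (hu : Function.Injective u)
    (p : N₂ →ₗ[S] P) (hp : Function.Surjective p) (hex : Function.Exact u p) :
    letI : Algebra (S ⊗[k] A) (R ⊗[k] A) :=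
      (Algebra.TensorProduct.map φ (AlgHom.id k A)).toRingHom.toAlgebra
    Function.Injective (LinearMap.lTensor (R ⊗[k] A) u) := by
  letI : Algebra S R := φ.toRingHom.toAlgebra
  letI : Algebra (S ⊗[k] A) (R ⊗[k] A) :=
    (Algebra.TensorProduct.map φ (AlgHom.id k A)).toRingHom.toAlgebra
  haveI : IsScalarTower k S R := IsScalarTower.of_algebraMap_eq (fun c => (φ.commutes c).symm)
  haveI : IsScalarTower S (S ⊗[k] A) (R ⊗[k] A) := IsScalarTower.of_algebraMap_eq (fun c => by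
    change algebraMap S (R ⊗[k] A) c =
      Algebra.TensorProduct.map φ (AlgHom.id k A) (algebraMap S (S ⊗[k] A) c)
    simp [Algebra.TensorProduct.algebraMap_apply]
    rfl)
  haveI : Algebra.IsPushout S R (S ⊗[k] A) (R ⊗[k] A) := by
    constructor
    refine IsBaseChange.of_equiv (TensorProduct.AlgebraTensorModule.cancelBaseChange k S R R A) ?_
    intro x
    induction x using TensorProduct.induction_on with
    | zero => simp
    | tmul s a =>
      change (s • (1 : R)) ⊗ₜ[k] a = Algebra.TensorProduct.map φ (AlgHom.id k A) (s ⊗ₜ a)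
      rw [Algebra.TensorProduct.map_tmul, AlgHom.id_apply, Algebra.smul_def, mul_one]
      rfl
    | add x y hx hy => rw [TensorProduct.tmul_add, map_add, map_add, hx, hy]
  exact lTensor_injective_of_isPushout S R (S ⊗[k] A) (R ⊗[k] A) u hu p hp hex

theorem exact_toSpanSingleton_mkQ (S B : Type*) [CommRing S] [CommRing B] [Algebra S B]
    {N : Type*} [AddCommGroup N] [Module B N] [Module S N] [IsScalarTower S B N] (t : N) :
    Function.Exact (LinearMap.toSpanSingleton B N t)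
      ((Submodule.mkQ (Submodule.span B {t})).restrictScalars S) := by
  intro x
  change Submodule.mkQ (Submodule.span B {t}) x = 0 ↔
    x ∈ Set.range (LinearMap.toSpanSingleton B N t)
  rw [Submodule.mkQ_apply, Submodule.Quotient.mk_eq_zero, Submodule.mem_span_singleton]
  constructor
  · rintro ⟨b, rfl⟩
    exact ⟨b, rfl⟩
  · rintro ⟨b, rfl⟩
    exact ⟨b, rfl⟩

theorem injective_toSpanSingleton_of_isRegSec {B : Type*} [CommRing B] {N : Type*}
    [AddCommGroup N] [Module B N] {t : N} (hreg : IsRegSec B t) :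
    Function.Injective (LinearMap.toSpanSingleton B N t) := by
  intro b c h
  have h1 : (b - c) • t = 0 := by
    rw [sub_smul, sub_eq_zero]
    exact h
  exact sub_eq_zero.1 (hreg _ h1)

/-- Regular sections with `S`-flat cokernel stay regular after base change `S → R`, in plain
tensor-product terms. -/
theorem isRegSec_tmul_tensor (k S R A : Type*) [CommRing k] [CommRing S] [CommRing R]
    [CommRing A] [Algebra k S] [Algebra k R] [Algebra k A] (φ : S →ₐ[k] R)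
    {N : Type*} [AddCommGroup N] [Module (S ⊗[k] A) N] [Module S N]
    [IsScalarTower S (S ⊗[k] A) N] (t : N) (hreg : IsRegSec (S ⊗[k] A) t)
    (hflat : Module.Flat S (N ⧸ Submodule.span (S ⊗[k] A) {t})) :
    letI : Algebra (S ⊗[k] A) (R ⊗[k] A) :=
      (Algebra.TensorProduct.map φ (AlgHom.id k A)).toRingHom.toAlgebra
    IsRegSec (R ⊗[k] A) ((1 : R ⊗[k] A) ⊗ₜ[S ⊗[k] A] t) := by
  letI : Algebra (S ⊗[k] A) (R ⊗[k] A) :=
    (Algebra.TensorProduct.map φ (AlgHom.id k A)).toRingHom.toAlgebra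
  have h1 := injective_toSpanSingleton_of_isRegSec hreg
  have h2 := exact_toSpanSingleton_mkQ S (S ⊗[k] A) t
  have h3 : Function.Surjective
      ((Submodule.mkQ (Submodule.span (S ⊗[k] A) {t})).restrictScalars S) := by
    intro y
    obtain ⟨x, rfl⟩ := Submodule.Quotient.mk_surjective (Submodule.span (S ⊗[k] A) {t}) y
    exact ⟨x, rfl⟩
  have h4 := lTensor_injective_tensor k S R A φ (LinearMap.toSpanSingleton (S ⊗[k] A) N t) h1
      ((Submodule.mkQ (Submodule.span (S ⊗[k] A) {t})).restrictScalars S) h3 h2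
  exact isRegSec_tmul (R ⊗[k] A) t h4

variable {k : Type u} [Field k] (𝒞 : CurveData k) {S R : Type u} [CommRing S] [Algebra k S]
  [CommRing R] [Algebra k R] (φ : S →ₐ[k] R)

/-- For the family charts, a regular section with `S`-flat cokernel `Q₁ ⧸ B₁ t₁` stays regular
after every base change `φ : S →ₐ[k] R`. -/
theorem bcReg₁_of_flat (Q : GluedModule (𝒞.chart S)) (t₁ : Q.N₁)
    (hreg : IsRegSec (𝒞.chart S).B₁ t₁)
    (hflat : Module.Flat S (Q.N₁ ⧸ Submodule.span (𝒞.chart S).B₁ {t₁})) :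
    BCReg₁ (𝒞.chartHom φ) Q t₁ := by
  letI : Module (S ⊗[k] 𝒞.A₁) Q.N₁ := Q.mod₁
  haveI : IsScalarTower S (S ⊗[k] 𝒞.A₁) Q.N₁ := Q.tower₁
  exact isRegSec_tmul_tensor k S R 𝒞.A₁ φ t₁ hreg hflat

/-- **The chart bijection, section form.**  `Q` a line bundle over `𝒞.chart S` with a global
section `t`, regular on chart 1, with C2 and `S`-flat cokernel `Q₁ ⧸ B₁ t₁`.  Then a line bundle
`M` over `𝒞.chart R` is the base change of `Q` along `φ : S →ₐ[k] R` iff it has a global section,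
regular on chart 1, with C2, whose chart-1 order ideal is the extension of that of `t`. -/
theorem isBC_iff_exists_section {Q : GluedModule (𝒞.chart S)} (hQ : Q.IsLineBundle)
    {t : Q.N₁ × Q.N₂} (ht : Q.ι₁ t.1 = Q.ι₂ t.2) (ht₁ : IsRegSec (𝒞.chart S).B₁ t.1)
    (ht₂ : C2 Q t.2) (hflat : Module.Flat S (Q.N₁ ⧸ Submodule.span (𝒞.chart S).B₁ {t.1}))
    (M : GluedModule (𝒞.chart R)) (hM : M.IsLineBundle) :
    IsBC (𝒞.chartHom φ) Q M ↔
      ∃ s : M.N₁ × M.N₂, M.ι₁ s.1 = M.ι₂ s.2 ∧ IsRegSec (𝒞.chart R).B₁ s.1 ∧ C2 M s.2 ∧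
        ord (𝒞.chart R).B₁ s.1 = (ord (𝒞.chart S).B₁ t.1).map (𝒞.chartHom φ).ψ₁ := by
  have hreg := bcReg₁_of_flat 𝒞 φ Q t.1 ht₁ hflat
  constructor
  · rintro ⟨D⟩
    obtain ⟨h1, h2, -, h4, h5⟩ := BCSec.section_spec D hQ ht ht₂ hreg
    exact ⟨(D.j₁ t.1, D.j₂ t.2), h1, h2, h4, h5⟩
  · rintro ⟨s, hs, hs₁, hs₂, hord⟩
    obtain ⟨D, -, -⟩ := exists_baseChangeData_of_ord_eq hQ hM ht ht₂ hreg hs hs₁ hs₂ hord
    exact ⟨D⟩

end chart

section inj

variable {R R' : Type u} [CommRing R] [CommRing R'] {φ ψ : R →+* R'}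
  {𝔹 : TwoChart R} {𝔹' : TwoChart R'} {Φ : TwoChart.Hom φ 𝔹 𝔹'} {Ψ : TwoChart.Hom ψ 𝔹 𝔹'}
  {N : GluedModule 𝔹} {N' : GluedModule 𝔹'}

/-- (INJ core) If two base change data `Q → M` (along possibly different maps of two-charts)
send the section `t₁` to sections which are `R'`-multiples of each other, then the two extensions
of the order ideal of `t₁` coincide.  (Apply with `H⁰(M) = R'·j(t)`; then the Hilbert chart gives
equality of the classifying maps.) -/
theorem map_ord_eq_of_smul (D : BaseChangeData Φ N N') (D' : BaseChangeData Ψ N N')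
    (hN : N.IsLineBundle) {t₁ : N.N₁} (hreg : BCReg₁ Φ N t₁) (r r' : R')
    (h : D'.j₁ t₁ = r • D.j₁ t₁) (h' : D.j₁ t₁ = r' • D'.j₁ t₁) :
    (ord 𝔹.B₁ t₁).map Φ.ψ₁ = (ord 𝔹.B₁ t₁).map Ψ.ψ₁ := by
  have hs := BCSec.isRegSec₁ D hreg
  have h1 : (algebraMap R' 𝔹'.B₁ r' * algebraMap R' 𝔹'.B₁ r - 1) • D.j₁ t₁ = 0 := by
    rw [sub_smul, one_smul, mul_smul, algebraMap_smul, algebraMap_smul, ← h, ← h', sub_self]
  have h2 : algebraMap R' 𝔹'.B₁ r' * algebraMap R' 𝔹'.B₁ r = 1 := sub_eq_zero.1 (hs _ h1)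
  have hu : IsUnit (algebraMap R' 𝔹'.B₁ r) := IsUnit.of_mul_eq_one _ (by rw [mul_comm]; exact h2)
  rw [← BCSec.ord₁ D hN, ← BCSec.ord₁ D' hN, h, ← algebraMap_smul 𝔹'.B₁ r (D.j₁ t₁),
    ord_smul_of_isUnit hu]

end inj

end Fermat.Agent.S25.ATLAS.DIV.H5928
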